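import Mathlib

/-!
# Completions of Dedekind domains at height one primes are complete discrete valuation rings

For a Dedekind domain `R` with fraction field `K` and `v : HeightOneSpectrum R` we show that
`v.adicCompletionIntegers K` (a discrete valuation ring by Mathlib) is adically complete for its
maximal ideal, has residue field a quotient of `R ⧸ v.asIdeal`, and we describe the powers of its
maximal ideal by the valuation.
-/

set_option autoImplicit false

open IsDedekindDomain HeightOneSpectrum WithZero

namespace Fermat.Agent.H30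

variable {R : Type*} [CommRing R] [IsDedekindDomain R] {K : Type*} [Field K] [Algebra R K]
  [IsFractionRing R K] (v : HeightOneSpectrum R)

/-- A uniformiser of the completed local ring, coming from `R`. -/
lemma exists_uniformizer_adicCompletionIntegers :
    ∃ ϖ : R, Valued.v ((algebraMap R (v.adicCompletionIntegers K) ϖ : v.adicCompletionIntegers K) :
      v.adicCompletion K) = exp (-1 : ℤ) := by
  obtain ⟨ϖ, hϖ⟩ := v.intValuation_exists_uniformizer
  refine ⟨ϖ, ?_⟩
  rw [algebraMap_adicCompletionIntegers_apply]
  rw [valuedAdicCompletion_eq_valuation', valuation_of_algebraMap, hϖ]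

/-- Membership in the powers of the maximal ideal of the completed local ring, via the
valuation. -/
lemma mem_maximalIdeal_pow_adicCompletionIntegers_iff (x : v.adicCompletionIntegers K) (n : ℕ) :
    x ∈ IsLocalRing.maximalIdeal (v.adicCompletionIntegers K) ^ n ↔
      Valued.v (x : v.adicCompletion K) ≤ exp (-(n : ℤ)) := by
  obtain ⟨ϖ, hϖ⟩ := exists_uniformizer_adicCompletionIntegers (K := K) v
  set π : v.adicCompletionIntegers K := algebraMap R (v.adicCompletionIntegers K) ϖ with hπ
  have hint := adicCompletionIntegers.integers K v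
  have hmax : IsLocalRing.maximalIdeal (v.adicCompletionIntegers K) = Ideal.span {π} := by
    ext y
    rw [Ideal.mem_span_singleton, hint.dvd_iff_le]
    have h1 : y ∈ IsLocalRing.maximalIdeal (v.adicCompletionIntegers K) ↔
        Valued.v (y : v.adicCompletion K) < 1 :=
      Valuation.mem_maximalIdeal_iff _ (Valued.v : Valuation (v.adicCompletion K) ℤᵐ⁰)
    rw [h1]
    change _ ↔ Valued.v (y : v.adicCompletion K) ≤ Valued.v (π : v.adicCompletion K)
    rw [hϖ, ← lt_mul_exp_iff_le (exp_ne_zero), ← exp_add]
    simp
  rw [hmax, Ideal.span_singleton_pow, Ideal.mem_span_singleton, hint.dvd_iff_le]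
  change Valued.v (x : v.adicCompletion K) ≤
    Valued.v ((π ^ n : v.adicCompletionIntegers K) : v.adicCompletion K) ↔ _
  have : Valued.v ((π ^ n : v.adicCompletionIntegers K) : v.adicCompletion K) =
      exp (-(n : ℤ)) := by
    rw [SubmonoidClass.coe_pow, map_pow, hϖ, ← exp_nsmul]
    simp
  rw [this]

/-- Closed balls of radius `exp (-n)` in the completion are closed. -/
lemma isClosed_ball_adicCompletion (a : v.adicCompletion K) (n : ℕ) :
    IsClosed {y : v.adicCompletion K | Valued.v (y - a) ≤ exp (-(n : ℤ))} := by
  obtain ⟨ϖ, hϖ⟩ := exists_uniformizer_adicCompletionIntegers (K := K) v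
  set b : v.adicCompletion K :=
    ((algebraMap R (v.adicCompletionIntegers K) ϖ : v.adicCompletionIntegers K) :
      v.adicCompletion K) ^ n with hb
  have hvb : Valued.v b = exp (-(n : ℤ)) := by
    rw [hb, map_pow, hϖ, ← exp_nsmul]
    simp
  have h1 : IsClosed {x : v.adicCompletion K |
      (Valued.v : Valuation (v.adicCompletion K) ℤᵐ⁰).restrict x ≤
        (Valued.v : Valuation (v.adicCompletion K) ℤᵐ⁰).restrict b} :=
    Valued.isClosed_closedBall (v.adicCompletion K) _
  have h2 : {y : v.adicCompletion K | Valued.v (y - a) ≤ exp (-(n : ℤ))} =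
      (fun y => y - a) ⁻¹' {x : v.adicCompletion K |
        (Valued.v : Valuation (v.adicCompletion K) ℤᵐ⁰).restrict x ≤
          (Valued.v : Valuation (v.adicCompletion K) ℤᵐ⁰).restrict b} := by
    ext y
    simp only [Set.mem_ofPred_eq, Set.mem_preimage, Valuation.restrict_le_iff, hvb]
  rw [h2]
  exact h1.preimage (continuous_id.sub continuous_const)

instance isAdicComplete_adicCompletionIntegers :
    IsAdicComplete (IsLocalRing.maximalIdeal (v.adicCompletionIntegers K))
      (v.adicCompletionIntegers K) := by
  refine { toIsHausdorff := inferInstance, prec' := ?_ }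
  intro f hf
  have hmem : ∀ m n, m ≤ n →
      Valued.v ((f n : v.adicCompletion K) - (f m : v.adicCompletion K)) ≤ exp (-(m : ℤ)) := by
    intro m n hmn
    have h1 := hf hmn
    rw [SModEq.sub_mem, smul_eq_mul, Ideal.mul_top] at h1
    have h2 := (mem_maximalIdeal_pow_adicCompletionIntegers_iff v _ m).mp h1
    rw [Valuation.map_sub_swap]
    exact h2
  have hcau : CauchySeq (fun n => (f n : v.adicCompletion K)) := by
    rw [CauchySeq, Valued.cauchy_iff]
    refine ⟨Filter.map_neBot, fun γ => ?_⟩
    have hγ0 : MonoidWithZeroHom.ValueGroup₀.embedding γ.1 ≠ (0 : ℤᵐ⁰) := by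
      rw [map_ne_zero]
      exact Units.ne_zero γ
    obtain ⟨N, hN⟩ : ∃ N : ℕ, exp (-(N : ℤ)) < MonoidWithZeroHom.ValueGroup₀.embedding γ.1 := by
      obtain ⟨l, hl⟩ : ∃ l : ℤ, MonoidWithZeroHom.ValueGroup₀.embedding γ.1 = exp l :=
        ⟨log _, (exp_log hγ0).symm⟩
      refine ⟨(-l).toNat + 1, ?_⟩
      rw [hl, exp_lt_exp]
      have := Int.self_le_toNat (-l)
      push_cast
      omega
    refine ⟨(fun n => (f n : v.adicCompletion K)) '' {n | N ≤ n},
      Filter.image_mem_map (Filter.mem_atTop N), ?_⟩
    rintro _ ⟨m, hm, rfl⟩ _ ⟨n, hn, rfl⟩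
    rw [Valuation.restrict_lt_iff_lt_embedding]
    refine lt_of_le_of_lt ?_ hN
    simp only [Set.mem_ofPred_eq] at hm hn
    rcases le_total m n with h | h
    · exact (hmem m n h).trans (exp_le_exp.mpr (by omega))
    · rw [Valuation.map_sub_swap]
      exact (hmem n m h).trans (exp_le_exp.mpr (by omega))
  obtain ⟨L, hL⟩ := cauchySeq_tendsto_of_complete hcau
  have hball : ∀ n, Valued.v (L - (f n : v.adicCompletion K)) ≤ exp (-(n : ℤ)) := by
    intro n
    exact (isClosed_ball_adicCompletion v (f n : v.adicCompletion K) n).mem_of_tendsto hL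
      (Filter.eventually_atTop.mpr ⟨n, fun m hm => hmem n m hm⟩)
  have hLmem : L ∈ v.adicCompletionIntegers K := by
    rw [mem_adicCompletionIntegers]
    have h0 := hball 0
    have h1 : Valued.v (f 0 : v.adicCompletion K) ≤ 1 := (f 0).2
    have h2 : L = (L - (f 0 : v.adicCompletion K)) + (f 0 : v.adicCompletion K) := by ring
    rw [h2]
    refine (Valuation.map_add _ _ _).trans (max_le ?_ h1)
    simpa using h0
  refine ⟨⟨L, hLmem⟩, fun n => ?_⟩
  rw [SModEq.sub_mem, smul_eq_mul, Ideal.mul_top,
    mem_maximalIdeal_pow_adicCompletionIntegers_iff]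
  have := hball n
  rw [Valuation.map_sub_swap] at this
  exact this

/-- For `r : R`, membership of its image in `𝔪 ^ n` is membership in `v ^ n`. -/
lemma algebraMap_mem_maximalIdeal_pow_iff (r : R) (n : ℕ) :
    algebraMap R (v.adicCompletionIntegers K) r ∈
      IsLocalRing.maximalIdeal (v.adicCompletionIntegers K) ^ n ↔ r ∈ v.asIdeal ^ n := by
  rw [mem_maximalIdeal_pow_adicCompletionIntegers_iff, algebraMap_adicCompletionIntegers_apply,
    valuedAdicCompletion_eq_valuation', valuation_of_algebraMap, intValuation_le_pow_iff_mem]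

/-- For `r : R`, its image is in the maximal ideal iff `r ∈ v`. -/
lemma algebraMap_mem_maximalIdeal_iff (r : R) :
    algebraMap R (v.adicCompletionIntegers K) r ∈
      IsLocalRing.maximalIdeal (v.adicCompletionIntegers K) ↔ r ∈ v.asIdeal := by
  have := algebraMap_mem_maximalIdeal_pow_iff (K := K) v r 1
  rwa [pow_one, pow_one] at this

/-- `R` surjects onto the residue field of the completed local ring. -/
lemma residue_comp_algebraMap_surjective :
    Function.Surjective ((IsLocalRing.residue (v.adicCompletionIntegers K)).comp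
      (algebraMap R (v.adicCompletionIntegers K))) := by
  intro xbar
  obtain ⟨x, rfl⟩ := IsLocalRing.residue_surjective xbar
  -- approximate `x` by an element of `K`
  have hU : {y : v.adicCompletion K | Valued.v (y - (x : v.adicCompletion K)) < 1} ∈
      nhds (x : v.adicCompletion K) := by
    rw [Valued.mem_nhds]
    refine ⟨1, fun y hy => ?_⟩
    simpa using hy
  obtain ⟨_, hy, ⟨k, rfl⟩⟩ := mem_closure_iff_nhds.mp
    ((denseRange_algebraMap (K := K) v) (x : v.adicCompletion K)) _ hU
  simp only [Set.mem_ofPred_eq] at hy
  have hk : v.valuation K k ≤ 1 := by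
    rw [← valuedAdicCompletion_eq_valuation' v k]
    have h2 : (algebraMap K (v.adicCompletion K) k) =
        (algebraMap K (v.adicCompletion K) k - (x : v.adicCompletion K)) +
          (x : v.adicCompletion K) := by ring
    change Valued.v (algebraMap K (v.adicCompletion K) k) ≤ 1
    rw [h2]
    exact (Valuation.map_add _ _ _).trans (max_le hy.le x.2)
  obtain ⟨a, ha⟩ := exists_valuation_sub_lt_of_integer v hk 1
  refine ⟨a, ?_⟩
  rw [RingHom.comp_apply, ← sub_eq_zero, ← map_sub, IsLocalRing.residue_eq_zero_iff,
    ← pow_one (IsLocalRing.maximalIdeal _), mem_maximalIdeal_pow_adicCompletionIntegers_iff]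
  have h3 : ((algebraMap R (v.adicCompletionIntegers K) a - x : v.adicCompletionIntegers K) :
      v.adicCompletion K) =
      (algebraMap K (v.adicCompletion K) (algebraMap R K a - k)) +
        (algebraMap K (v.adicCompletion K) k - (x : v.adicCompletion K)) := by
    rw [map_sub]
    simp only [AddSubgroupClass.coe_sub, algebraMap_adicCompletionIntegers_apply]
    change (algebraMap K (v.adicCompletion K) (algebraMap R K a)) - (x : v.adicCompletion K) = _
    ring
  rw [h3]
  have h4 : Valued.v (algebraMap K (v.adicCompletion K) (algebraMap R K a - k)) < 1 := by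
    have := valuedAdicCompletion_eq_valuation' v (algebraMap R K a - k)
    change Valued.v (algebraMap K (v.adicCompletion K) (algebraMap R K a - k)) = _ at this
    rw [this]
    simpa using ha
  have h5 := (Valuation.map_add (Valued.v : Valuation (v.adicCompletion K) ℤᵐ⁰) _ _).trans_lt
    (max_lt h4 hy)
  have h6 : exp (-((1 : ℕ) : ℤ)) * exp 1 = (1 : ℤᵐ⁰) := by
    rw [← exp_add]; simp
  rw [← lt_mul_exp_iff_le exp_ne_zero, h6]
  exact h5

/-- The residue field of the completed local ring is finite if `R ⧸ v` is. -/
lemma finite_residueField_adicCompletionIntegers [Finite (R ⧸ v.asIdeal)] :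
    Finite (IsLocalRing.ResidueField (v.adicCompletionIntegers K)) := by
  have hker : ∀ r ∈ v.asIdeal, ((IsLocalRing.residue (v.adicCompletionIntegers K)).comp
      (algebraMap R (v.adicCompletionIntegers K))) r = 0 := by
    intro r hr
    rw [RingHom.comp_apply, IsLocalRing.residue_eq_zero_iff, algebraMap_mem_maximalIdeal_iff]
    exact hr
  have hsurj : Function.Surjective (Ideal.Quotient.lift v.asIdeal _ hker) :=
    Ideal.Quotient.lift_surjective_of_surjective _ _
      (residue_comp_algebraMap_surjective (K := K) v)
  exact Finite.of_surjective _ hsurj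

/-- The completed local ring has characteristic zero if `K` has. -/
lemma charZero_adicCompletionIntegers [CharZero K] : CharZero (v.adicCompletionIntegers K) := by
  have : CharZero (v.adicCompletion K) :=
    charZero_of_injective_algebraMap (algebraMap K (v.adicCompletion K)).injective
  infer_instance

end Fermat.Agent.H30
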