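import Mathlib
import Fermat.Prelude.Def_CuspForm_HeckeAlgebra

/-!
# ES-RED: the anemic Hecke algebra is reduced, given a Petersson-type form

* `PeterssonFormStatement`: on `S₂(Γ₀(N))` there is a biadditive, definite form for which every
  `T_ℓ` (`ℓ ∤ N`) is self-adjoint. (Analytic input: the Petersson scalar product.)
* `HeckeReducedStatement`: the Hecke algebra `heckeAlgebra N 2 S` is reduced whenever all primes
  dividing `N` lie in `S`.
* `heckeReduced_of_petersson : PeterssonFormStatement → HeckeReducedStatement` (pure algebra).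
-/

set_option autoImplicit false

namespace Fermat.Agent.H30

/-- **Petersson form** (analytic input): a biadditive definite form on `S₂(Γ₀(N))` for which all
Hecke operators `T_ℓ`, `ℓ ∤ N`, are self-adjoint. -/
def PeterssonFormStatement : Prop :=
  ∀ (N : ℕ) [NeZero N], ∃ B : CuspForm (CongruenceSubgroup.Gamma0 N) 2 →
      CuspForm (CongruenceSubgroup.Gamma0 N) 2 → ℂ,
    (∀ f g h, B (f + g) h = B f h + B g h) ∧ (∀ f g h, B f (g + h) = B f g + B f h) ∧
    (∀ f, B f f = 0 → f = 0) ∧
    ∀ (ℓ : ℕ) (hℓ : ℓ.Prime) (hℓN : ¬ ℓ ∣ N) (f g : CuspForm (CongruenceSubgroup.Gamma0 N) 2),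
      B (CuspForm.heckeTLin 2 hℓ hℓN f) g = B f (CuspForm.heckeTLin 2 hℓ hℓN g)

/-- The anemic Hecke algebra of weight `2` is reduced. -/
def HeckeReducedStatement : Prop :=
  ∀ (N : ℕ) [NeZero N] (S : Set ℕ), (∀ q : ℕ, q.Prime → q ∣ N → q ∈ S) →
    IsReduced (CuspForm.heckeAlgebra N 2 S)

section Abstract

variable {V : Type*} [AddCommGroup V] [Module ℂ V]

/-- `t` is self-adjoint for the form `B`. -/
def IsSelfAdjFor (B : V → V → ℂ) (t : Module.End ℂ V) : Prop :=
  ∀ x y, B (t x) y = B x (t y)

lemma isSelfAdjFor_of_mem_adjoin (B : V → V → ℂ)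
    (hB1 : ∀ f g h, B (f + g) h = B f h + B g h) (hB2 : ∀ f g h, B f (g + h) = B f g + B f h)
    (G : Set (Module.End ℂ V)) (hG : ∀ t ∈ G, IsSelfAdjFor B t)
    (hcomm : ∀ s ∈ Algebra.adjoin ℤ G, ∀ t ∈ Algebra.adjoin ℤ G, s * t = t * s)
    (t : Module.End ℂ V) (ht : t ∈ Algebra.adjoin ℤ G) : IsSelfAdjFor B t := by
  have hzero_left : ∀ y, B 0 y = 0 := fun y => by
    have := hB1 0 0 y
    rw [add_zero] at this
    exact left_eq_add.mp this
  have hzero_right : ∀ x, B x 0 = 0 := fun x => by
    have := hB2 x 0 0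
    rw [add_zero] at this
    exact left_eq_add.mp this
  have hneg_left : ∀ x y, B (-x) y = -B x y := fun x y => by
    have := hB1 x (-x) y
    rw [add_neg_cancel, hzero_left] at this
    exact (neg_eq_of_add_eq_zero_right this.symm).symm
  have hneg_right : ∀ x y, B x (-y) = -B x y := fun x y => by
    have := hB2 x y (-y)
    rw [add_neg_cancel, hzero_right] at this
    exact (neg_eq_of_add_eq_zero_right this.symm).symm
  have hnat : ∀ (n : ℕ) x y, B ((n : Module.End ℂ V) x) y = B x ((n : Module.End ℂ V) y) := by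
    intro n
    induction n with
    | zero => intro x y; simp [hzero_left, hzero_right]
    | succ n ih =>
      intro x y
      rw [Nat.cast_succ, LinearMap.add_apply, LinearMap.add_apply, hB1, hB2, ih]
      simp
  induction ht using Algebra.adjoin_induction with
  | mem t ht => exact hG t ht
  | algebraMap r =>
    intro x y
    rcases Int.eq_nat_or_neg r with ⟨n, rfl | rfl⟩
    · simpa using hnat n x y
    · simp only [map_neg, eq_intCast, Int.cast_natCast, LinearMap.neg_apply, hneg_left,
        hneg_right]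
      rw [hnat n x y]
  | add s t _ _ hs ht =>
    intro x y
    rw [LinearMap.add_apply, LinearMap.add_apply, hB1, hB2, hs x y, ht x y]
  | mul s t hs' ht' hs ht =>
    intro x y
    rw [Module.End.mul_apply, hs, ht, ← Module.End.mul_apply, hcomm t ht' s hs']

end Abstract

theorem heckeReduced_of_petersson (h : PeterssonFormStatement) : HeckeReducedStatement := by
  intro N _ S hNS
  obtain ⟨B, hB1, hB2, hdef, hadj⟩ := h N
  have hG : ∀ t ∈ CuspForm.heckeGenerators N 2 S, IsSelfAdjFor B t := by
    rintro t (⟨ℓ, hℓ, hℓN, -, rfl⟩ | ⟨q, hqN, hq, hqS, rfl⟩)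
    · exact fun x y => hadj ℓ hℓ hℓN x y
    · exact absurd (hNS q hq hqN) hqS
  have hcomm : ∀ s ∈ Algebra.adjoin ℤ (CuspForm.heckeGenerators N 2 S),
      ∀ t ∈ Algebra.adjoin ℤ (CuspForm.heckeGenerators N 2 S), s * t = t * s := by
    intro s hs t ht
    have := mul_comm (⟨s, hs⟩ : CuspForm.heckeAlgebra N 2 S) ⟨t, ht⟩
    exact congrArg Subtype.val this
  rw [isReduced_iff_pow_one_lt 2 (by norm_num)]
  intro t ht
  have hsa := isSelfAdjFor_of_mem_adjoin B hB1 hB2 _ hG hcomm t.1 t.2
  have ht2 : (t : Module.End ℂ (CuspForm (CongruenceSubgroup.Gamma0 N) 2)) *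
      (t : Module.End ℂ (CuspForm (CongruenceSubgroup.Gamma0 N) 2)) = 0 := by
    have := congrArg Subtype.val ht
    rw [pow_two] at this
    simpa using this
  apply Subtype.ext
  refine LinearMap.ext fun x => ?_
  apply hdef
  rw [hsa, ← Module.End.mul_apply, ht2]
  simp only [LinearMap.zero_apply]
  have hzero_right : ∀ x, B x 0 = 0 := fun x => by
    have := hB2 x 0 0
    rw [add_zero] at this
    exact left_eq_add.mp this
  exact hzero_right _

end Fermat.Agent.H30
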