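import Mathlib
import Fermat.Prelude.Def_CuspForm_HeckeAlgebra
import Fermat.Agent.H30.HeckeReduced

/-!
# P-PET interfaces: the Petersson scalar product as an invariant mean

* `PetAdmissible Φ`: `Φ : ℍ → ℂ` is continuous, bounded and invariant under some principal
  congruence subgroup `Γ(M)`.
* `InvariantMeanStatement` (analytic heart): there is an additive functional `I` on admissible
  functions which is invariant under `SL(2, ℤ)` and under `z ↦ ℓ z`, `z ↦ z / ℓ`, and which is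
  definite on non-negative functions. (Intended: `I Φ = (∫_F Φ dμ) / μ F`, `F` a fundamental
  domain of a `Γ(M)` under which `Φ` is invariant, `μ` the hyperbolic measure.)
* Target of PET-ADJ: `InvariantMeanStatement → PeterssonFormStatement`
  (with `B f g := I (petersson 2 f g)`).
-/

set_option autoImplicit false

open UpperHalfPlane

open scoped MatrixGroups

namespace Fermat.Agent.H30

/-- Admissible test functions on the upper half plane: continuous, bounded, and invariant under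
some principal congruence subgroup. -/
def PetAdmissible (Φ : ℍ → ℂ) : Prop :=
  Continuous Φ ∧ (∃ C : ℝ, ∀ z, ‖Φ z‖ ≤ C) ∧
    ∃ M : ℕ, 0 < M ∧ ∀ γ ∈ CongruenceSubgroup.Gamma M, ∀ z : ℍ, Φ (γ • z) = Φ z

/-- **Invariant mean** on admissible functions. -/
def InvariantMeanStatement : Prop :=
  ∃ I : (ℍ → ℂ) → ℂ,
    (∀ Φ Ψ, PetAdmissible Φ → PetAdmissible Ψ → I (Φ + Ψ) = I Φ + I Ψ) ∧
    (∀ Φ, PetAdmissible Φ → ∀ γ : SL(2, ℤ), I (fun z => Φ (γ • z)) = I Φ) ∧
    (∀ Φ, PetAdmissible Φ → ∀ ℓ : ℕ, 0 < ℓ →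
      I (fun z => Φ (ModularForm.heckeDiagMatrix ℓ • z)) = I Φ) ∧
    (∀ Φ, PetAdmissible Φ → ∀ ℓ : ℕ, 0 < ℓ →
      I (fun z => Φ (ModularForm.heckeMatrix ℓ 0 • z)) = I Φ) ∧
    (∀ Φ, PetAdmissible Φ → (∀ z, 0 ≤ (Φ z).re ∧ (Φ z).im = 0) → I Φ = 0 → ∀ z, Φ z = 0)

end Fermat.Agent.H30
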