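import Mathlib

/-!
# S31 assembly: interface for the number-field points of a reduced finite `ℤ`-algebra

* `NFPoint 𝕋`: a ring homomorphism from `𝕋` to the ring of integers of a number field.
* `NFSeparationStatement` (pure commutative algebra): a reduced commutative ring which is a
  finitely generated torsion-free `ℤ`-module has finitely many such points which detect
  divisibility by integers up to a bounded factor `c` (the "conductor").
-/

set_option autoImplicit false

open scoped NumberField

namespace Fermat.Agent.H30

/-- A ring homomorphism from `𝕋` to the ring of integers of a number field. -/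
structure NFPoint (𝕋 : Type) [CommRing 𝕋] : Type 1 where
  /-- the number field -/
  E : Type
  [instField : Field E]
  [instNumberField : NumberField E]
  /-- the point -/
  φ : 𝕋 →+* 𝓞 E

attribute [instance] NFPoint.instField NFPoint.instNumberField

/-- **Conductor statement.** For a reduced commutative ring `𝕋`, finitely generated and
torsion-free over `ℤ`, there are finitely many points `φ_j : 𝕋 → 𝓞 E_j` and an integer `c ≠ 0`
such that: if `d ∣ φ_j t` in `𝓞 E_j` for all `j`, then `d ∣ c * t` in `𝕋`. -/
def NFSeparationStatement : Prop :=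
  ∀ (𝕋 : Type) [CommRing 𝕋] [IsReduced 𝕋] [Module.Finite ℤ 𝕋] [IsAddTorsionFree 𝕋],
    ∃ (J : Type) (_ : Fintype J) (P : J → NFPoint 𝕋) (c : ℤ), c ≠ 0 ∧
      ∀ (d : ℤ) (t : 𝕋), (∀ j, ((d : ℤ) : 𝓞 (P j).E) ∣ (P j).φ t) →
        ∃ s : 𝕋, (c : 𝕋) * t = (d : 𝕋) * s

end Fermat.Agent.H30
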