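import Fermat.Agent.H30.S31Final
import Fermat.Agent.H39.PetAdj
import Fermat.Agent.H83.PetFinal
import Fermat.Agent.H68.NFSeparation

/-!
# S31 from S30 alone; reducedness of the anemic Hecke algebra (unconditional)

All auxiliary inputs of `s31_of_S30` are landed:
* `Fermat.Agent.H83.Pet.invariantMean : InvariantMeanStatement` (PET-MEAN, helper83; a second
  independent proof is `Fermat.Agent.H98.Pet.invariantMean`),
* `Fermat.Agent.H39.peterssonForm_of_invariantMean` (PET-ADJ, helper39),
* `Fermat.Agent.H68.nfSeparation : NFSeparationStatement` (PTS-Q, helper68).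

Hence
* `peterssonForm : PeterssonFormStatement` (the Petersson inner product on `S₂(Γ₀(N))`, for which
  the Hecke operators `T_ℓ`, `ℓ ∤ N`, are self-adjoint),
* `heckeReduced : HeckeReducedStatement` (the Hecke algebra away from a set of primes containing
  the primes dividing `N` is reduced),
* `s31_of_S30_only`: the frozen S31 follows from the frozen S30 alone.
-/

set_option autoImplicit false

namespace Fermat.Agent.H30

/-- The Petersson form statement (unconditional). -/
theorem peterssonForm : PeterssonFormStatement :=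
  Fermat.Agent.H39.peterssonForm_of_invariantMean Fermat.Agent.H83.Pet.invariantMean

/-- The anemic Hecke algebra of weight `2` and level `N` is reduced (unconditional). -/
theorem heckeReduced : HeckeReducedStatement :=
  heckeReduced_of_petersson peterssonForm

/-- **S31 from S30 alone.** -/
theorem s31_of_S30_only (hS30 : S30Statement)
    {p : ℕ} {N : ℕ} [NeZero N] {S : Finset ℕ}
    {𝒪 : Type} [CommRing 𝒪] [IsDomain 𝒪] [IsDiscreteValuationRing 𝒪]
    [IsAdicComplete (IsLocalRing.maximalIdeal 𝒪) 𝒪]
    {θ : CuspForm.heckeAlgebra N 2 (↑S : Set ℕ) →+* IsLocalRing.ResidueField 𝒪}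
    {T : Type} [CommRing T] [IsLocalRing T] [IsNoetherianRing T]
    [IsAdicComplete (IsLocalRing.maximalIdeal T) T] [Algebra 𝒪 T] [IsLocalHom (algebraMap 𝒪 T)]
    [Module.Finite 𝒪 T] [Module.Free 𝒪 T]
    (hp : p.Prime)
    (hp𝒪 : (p : 𝒪) ∈ IsLocalRing.maximalIdeal 𝒪) (hpS : p ∈ S)
    (hNS : ∀ q : ℕ, q.Prime → q ∣ N → q ∈ S)
    (H : CuspForm.HeckeGaloisRepDatum N (↑S : Set ℕ) 𝒪 θ T)
    (q : ℕ) (hq : q.Prime) (hqS : q ∉ S) :
    H.ρ.IsUnramifiedAt q :=
  s31_of_S30 hS30 peterssonForm Fermat.Agent.H68.nfSeparation hp hp𝒪 hpS hNS H q hq hqS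

end Fermat.Agent.H30
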