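import Mathlib

/-!
# S31 assembly (route via S30): algebra lemmas for the points construction

* `exists_pow_bound_of_injective_dvr`: for an injective ring homomorphism of discrete valuation
  rings, high powers of the maximal ideal of the target pull back into given powers of the maximal
  ideal of the source.
* `exists_pow_dvd_of_forall_mem_pow`: in a Dedekind domain, divisibility by a nonzero element `d`
  is detected by finitely many `v`-adic conditions of bounded exponent.
* `exists_eq_pow_mul_of_mul_eq`: removing a bounded factor from a `p`-power divisibility in a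
  torsion-free ring.
-/

set_option autoImplicit false

open IsDedekindDomain HeightOneSpectrum WithZero

namespace Fermat.Agent.H30

section DVR

variable {A B : Type*} [CommRing A] [IsDomain A] [IsDiscreteValuationRing A]
  [CommRing B] [IsDomain B] [IsDiscreteValuationRing B]

/-- For an injective ring homomorphism of discrete valuation rings: for every `m` there is `m'`
such that `f x ∈ 𝔪_B ^ m'` implies `x ∈ 𝔪_A ^ m`. -/
lemma exists_pow_bound_of_injective_dvr (f : A →+* B) (hf : Function.Injective f) (m : ℕ) :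
    ∃ m' : ℕ, ∀ x : A, f x ∈ IsLocalRing.maximalIdeal B ^ m' → x ∈ IsLocalRing.maximalIdeal A ^ m := by
  obtain ⟨ϖ, hϖ⟩ := IsDiscreteValuationRing.exists_irreducible A
  rcases Nat.eq_zero_or_pos m with rfl | hm
  · exact ⟨0, fun x _ => by rw [pow_zero, Ideal.one_eq_top]; exact Submodule.mem_top⟩
  -- `b := f (ϖ ^ (m - 1)) ≠ 0`, so it is not in all powers of the maximal ideal
  have hb : f (ϖ ^ (m - 1)) ≠ 0 := by
    rw [Ne, map_eq_zero_iff f hf]
    exact pow_ne_zero _ hϖ.ne_zero
  have hbot := Ideal.iInf_pow_eq_bot_of_isLocalRing (IsLocalRing.maximalIdeal B)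
    (Ideal.IsMaximal.ne_top inferInstance)
  obtain ⟨k, hk⟩ : ∃ k : ℕ, f (ϖ ^ (m - 1)) ∉ IsLocalRing.maximalIdeal B ^ k := by
    by_contra hcon
    push Not at hcon
    have : f (ϖ ^ (m - 1)) ∈ ⨅ i, IsLocalRing.maximalIdeal B ^ i := Ideal.mem_iInf.mpr hcon
    rw [hbot] at this
    exact hb this
  refine ⟨k, fun x hx => ?_⟩
  by_contra hxm
  -- `x ∣ ϖ ^ (m - 1)`
  have hdvd : x ∣ ϖ ^ (m - 1) := by
    rcases ValuationRing.dvd_total x (ϖ ^ (m - 1)) with h | ⟨z, hz⟩
    · exact h
    · have hzu : IsUnit z := by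
        by_contra hz'
        apply hxm
        have hzm : z ∈ IsLocalRing.maximalIdeal A := (IsLocalRing.mem_maximalIdeal z).mpr hz'
        rw [hϖ.maximalIdeal_eq, Ideal.mem_span_singleton] at hzm
        obtain ⟨w, rfl⟩ := hzm
        rw [hϖ.maximalIdeal_eq, Ideal.span_singleton_pow, Ideal.mem_span_singleton, hz]
        refine ⟨w, ?_⟩
        rw [← mul_assoc, ← pow_succ, Nat.sub_add_cancel hm]
      obtain ⟨u, rfl⟩ := hzu
      exact ⟨(u⁻¹ : Aˣ), by rw [hz, mul_assoc, Units.mul_inv, mul_one]⟩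
  obtain ⟨y, hy⟩ := hdvd
  apply hk
  rw [hy, map_mul]
  exact Ideal.mul_mem_right _ _ hx

end DVR

section Dedekind

variable {R : Type*} [CommRing R] [IsDedekindDomain R] {K : Type*} [Field K] [Algebra R K]
  [IsFractionRing R K]

/-- In a Dedekind domain, divisibility by a nonzero element `d` is detected by the `v`-adic
conditions at the finitely many `v` containing `d`, with a uniform exponent. -/
lemma exists_pow_dvd_of_forall_mem_pow (K : Type*) [Field K] [Algebra R K] [IsFractionRing R K]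
    (d : R) (hd : d ≠ 0) :
    ∃ m : ℕ, ∀ x : R, (∀ v : HeightOneSpectrum R, d ∈ v.asIdeal → x ∈ v.asIdeal ^ m) → d ∣ x := by
  classical
  have hfin : {v : HeightOneSpectrum R | v.asIdeal ∣ Ideal.span {d}}.Finite :=
    Ideal.finite_factors (by simpa using hd)
  -- exponents
  have hexp : ∀ v : HeightOneSpectrum R, ∃ a : ℕ, exp (-(a : ℤ)) ≤ v.intValuation d := by
    intro v
    have h0 : v.intValuation d ≠ 0 := v.intValuation_ne_zero d hd
    refine ⟨(-(log (v.intValuation d))).toNat, ?_⟩
    obtain ⟨l, hl⟩ : ∃ l : ℤ, v.intValuation d = exp l := ⟨log _, (exp_log h0).symm⟩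
    rw [hl, log_exp, exp_le_exp]
    have := Int.self_le_toNat (-l)
    omega
  choose a ha using hexp
  obtain ⟨m, hm⟩ := (hfin.toFinset.image a).exists_le
  refine ⟨m, fun x hx => ?_⟩
  -- the quotient `x / d` is integral at all `v`
  have hd' : algebraMap R K d ≠ 0 := by
    rw [Ne, map_eq_zero_iff _ (IsFractionRing.injective R K)]
    exact hd
  have hval : ∀ v : HeightOneSpectrum R,
      v.valuation K (algebraMap R K x / algebraMap R K d) ≤ 1 := by
    intro v
    rw [map_div₀, valuation_of_algebraMap, valuation_of_algebraMap]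
    have hdv0 : v.intValuation d ≠ 0 := v.intValuation_ne_zero d hd
    rw [div_le_one₀ (zero_lt_iff.mpr hdv0)]
    by_cases hv : d ∈ v.asIdeal
    · have hvmem : v ∈ hfin.toFinset := by
        rw [Set.Finite.mem_toFinset, Set.mem_ofPred_eq, Ideal.dvd_span_singleton]
        exact hv
      have h1 := (intValuation_le_pow_iff_mem v x m).mpr (hx v hv)
      refine h1.trans (le_trans ?_ (ha v))
      rw [exp_le_exp]
      have := hm (a v) (Finset.mem_image_of_mem a hvmem)
      omega
    · have h1 : v.intValuation d = 1 := by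
        by_contra hne
        exact hv ((intValuation_lt_one_iff_mem v d).mp
          (lt_of_le_of_ne (intValuation_le_one v d) hne))
      rw [h1]
      exact intValuation_le_one v x
  obtain ⟨z, hz⟩ := mem_integers_of_valuation_le_one K _ hval
  refine ⟨z, ?_⟩
  apply IsFractionRing.injective R K
  rw [map_mul, hz, mul_div_cancel₀ _ hd']

end Dedekind

section Torsion

/-- Removing a bounded factor: if `c ≠ 0` is an integer then there is `a` such that
`c * t = p ^ (n + a) * s` implies `p ^ n ∣ t`, in a torsion-free ring. -/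
lemma exists_eq_pow_mul_of_mul_eq {𝕋 : Type*} [CommRing 𝕋] [IsAddTorsionFree 𝕋] (p : ℕ)
    (hp : p.Prime) (c : ℤ) (hc : c ≠ 0) :
    ∃ a : ℕ, ∀ (n : ℕ) (t s : 𝕋), (c : 𝕋) * t = ((p ^ (n + a) : ℤ) : 𝕋) * s →
      ∃ s' : 𝕋, t = (p : 𝕋) ^ n * s' := by
  -- write `c = p ^ a * u` with `p ∤ u`
  obtain ⟨a, u, hu, hcu⟩ : ∃ (a : ℕ) (u : ℤ), ¬ (p : ℤ) ∣ u ∧ c = (p : ℤ) ^ a * u := by
    have hfin : FiniteMultiplicity (p : ℤ) c :=
      Int.finiteMultiplicity_iff.mpr ⟨by simpa using hp.one_lt.ne', hc⟩
    obtain ⟨u, hu1, hu2⟩ := hfin.exists_eq_pow_mul_and_not_dvd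
    exact ⟨_, u, hu2, hu1⟩
  refine ⟨a, fun n t s h => ?_⟩
  have hcop : IsCoprime u ((p : ℤ) ^ n) := by
    apply IsCoprime.pow_right
    rw [isCoprime_comm, Prime.coprime_iff_not_dvd (Nat.prime_iff_prime_int.mp hp)]
    exact hu
  obtain ⟨x, y, hxy⟩ := hcop
  -- cancel `p ^ a`
  have h1 : (u : 𝕋) * t = ((p : ℤ) ^ n : ℤ) * s := by
    have h2 : (p ^ a : ℕ) • ((u : 𝕋) * t) = (p ^ a : ℕ) • ((((p : ℤ) ^ n : ℤ) : 𝕋) * s) := by
      rw [nsmul_eq_mul, nsmul_eq_mul]
      have := h
      rw [hcu] at this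
      push_cast at this ⊢
      rw [pow_add] at this
      linear_combination this
    exact nsmul_right_injective (pow_ne_zero a hp.ne_zero) h2
  refine ⟨(x : 𝕋) * s + (y : 𝕋) * t, ?_⟩
  have h3 : ((x * u + y * (p : ℤ) ^ n : ℤ) : 𝕋) = 1 := by rw [hxy]; simp
  push_cast at h3 h1
  linear_combination (-1 : 𝕋) * t * h3 + (x : 𝕋) * h1

end Torsion

end Fermat.Agent.H30
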