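import Mathlib

/-!
# S31 assembly, block A0: elementary facts on traces of endomorphisms of finite free modules

* `repr_mem_of_mem_smul_top`: coordinates of elements of `I • ⊤` lie in `I`;
* `trace_mem_of_forall_mem_smul_top`: an endomorphism with image in `I • ⊤` has trace in `I`;
* `end_eq_zero_of_trace_mul_eq_zero`: the trace pairing on `End V` is non-degenerate;
* `lucasTr`: the Lucas sequence, and `trace_pow_eq_lucasTr`: traces of powers in rank two.
-/

set_option autoImplicit false

namespace Fermat.Agent.H30

section Trace

variable {T : Type*} [CommRing T] {V : Type*} [AddCommGroup V] [Module T V]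

/-- Coordinates of an element of `I • ⊤` lie in `I`. -/
lemma repr_mem_of_mem_smul_top {ι : Type*} (b : Module.Basis ι T V) (I : Ideal T) {v : V}
    (hv : v ∈ I • (⊤ : Submodule T V)) (i : ι) : b.repr v i ∈ I := by
  refine Submodule.smul_induction_on (p := fun v => b.repr v i ∈ I) hv ?_ ?_
  · intro a ha w _
    rw [map_smul, Finsupp.smul_apply, smul_eq_mul]
    exact I.mul_mem_right _ ha
  · intro x y hx hy
    rw [map_add, Finsupp.add_apply]
    exact I.add_mem hx hy

variable [Module.Free T V] [Module.Finite T V]

/-- An endomorphism whose image lies in `I • ⊤` has trace in `I`. -/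
lemma trace_mem_of_forall_mem_smul_top (I : Ideal T) (Y : Module.End T V)
    (h : ∀ v, Y v ∈ I • (⊤ : Submodule T V)) : LinearMap.trace T V Y ∈ I := by
  classical
  let b := Module.Free.chooseBasis T V
  rw [LinearMap.trace_eq_matrix_trace T b Y, Matrix.trace]
  refine I.sum_mem fun i _ => ?_
  rw [Matrix.diag_apply, LinearMap.toMatrix_apply]
  exact repr_mem_of_mem_smul_top b I (h _) i

/-- The trace pairing on the endomorphisms of a finite free module is non-degenerate. -/
lemma end_eq_zero_of_trace_mul_eq_zero (D : Module.End T V)
    (h : ∀ X : Module.End T V, LinearMap.trace T V (D * X) = 0) : D = 0 := by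
  classical
  let b := Module.Free.chooseBasis T V
  let e := LinearMap.toMatrixAlgEquiv b
  have h0 : e D = 0 := by
    ext j k
    have h1 := h (e.symm (Matrix.single k j 1))
    rw [LinearMap.trace_eq_matrix_trace T b] at h1
    have h2 : LinearMap.toMatrix b b (D * e.symm (Matrix.single k j 1)) =
        e D * Matrix.single k j 1 := by
      have : LinearMap.toMatrix b b (D * e.symm (Matrix.single k j 1)) =
          e (D * e.symm (Matrix.single k j 1)) := rfl
      rw [this, map_mul, AlgEquiv.apply_symm_apply]
    rw [h2, Matrix.trace_mul_single] at h1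
    simpa using h1
  exact e.injective (by rw [h0, map_zero])

end Trace

section Lucas

/-- The Lucas sequence `V_k(a, d)`: `V_0 = 2`, `V_1 = a`, `V_{k+2} = a V_{k+1} - d V_k`. -/
def lucasTr {R : Type*} [CommRing R] (a d : R) : ℕ → R
  | 0 => 2
  | 1 => a
  | (k + 2) => a * lucasTr a d (k + 1) - d * lucasTr a d k

theorem lucasTr_zero {R : Type*} [CommRing R] (a d : R) : lucasTr a d 0 = 2 := rfl

theorem lucasTr_one {R : Type*} [CommRing R] (a d : R) : lucasTr a d 1 = a := rfl

theorem lucasTr_add_two {R : Type*} [CommRing R] (a d : R) (k : ℕ) :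
    lucasTr a d (k + 2) = a * lucasTr a d (k + 1) - d * lucasTr a d k := rfl

theorem map_lucasTr {R R' : Type*} [CommRing R] [CommRing R'] (f : R →+* R') (a d : R) (k : ℕ) :
    f (lucasTr a d k) = lucasTr (f a) (f d) k := by
  induction k using Nat.strong_induction_on with
  | _ k ih =>
    match k with
    | 0 => rw [lucasTr_zero, lucasTr_zero, map_ofNat]
    | 1 => rw [lucasTr_one, lucasTr_one]
    | (k + 2) =>
      rw [lucasTr_add_two, lucasTr_add_two, map_sub, map_mul, map_mul,
        ih (k + 1) (by omega), ih k (by omega)]

open Polynomial in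
/-- In rank two, if the characteristic polynomial of `M` is `X² - a X + d` then
`tr (M ^ k) = V_k(a, d)`. -/
theorem trace_pow_eq_lucasTr {T : Type*} [CommRing T] [Nontrivial T] {V : Type*}
    [AddCommGroup V] [Module T V] [Module.Free T V] [Module.Finite T V] (hV : Module.finrank T V = 2)
    (M : Module.End T V) (a d : T)
    (hM : LinearMap.charpoly M = X ^ 2 - C a * X + C d) (k : ℕ) :
    LinearMap.trace T V (M ^ k) = lucasTr a d k := by
  have hCH : M ^ 2 - a • M + d • (1 : Module.End T V) = 0 := by
    have h := LinearMap.aeval_self_charpoly M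
    rw [hM] at h
    simpa [Algebra.smul_def] using h
  have hrec : ∀ k : ℕ, M ^ (k + 2) = a • M ^ (k + 1) - d • M ^ k := by
    intro k
    have h2 : M ^ 2 = a • M - d • (1 : Module.End T V) := by
      have := hCH
      rw [sub_add, sub_eq_zero] at this
      exact this
    calc M ^ (k + 2) = M ^ 2 * M ^ k := by rw [← pow_add, add_comm]
      _ = (a • M - d • (1 : Module.End T V)) * M ^ k := by rw [h2]
      _ = a • M ^ (k + 1) - d • M ^ k := by
        rw [sub_mul, smul_mul_assoc, smul_mul_assoc, one_mul, ← pow_succ']
  have htr1 : LinearMap.trace T V M = a := by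
    classical
    let b := Module.Free.chooseBasis T V
    have hcard : Fintype.card (Module.Free.ChooseBasisIndex T V) = 2 := by
      rw [← Module.finrank_eq_card_chooseBasisIndex, hV]
    have : Nonempty (Module.Free.ChooseBasisIndex T V) :=
      Fintype.card_pos_iff.mp (by omega)
    rw [LinearMap.trace_eq_matrix_trace T b M, Matrix.trace_eq_neg_charpoly_coeff,
      LinearMap.charpoly_toMatrix M b, hM, hcard]
    simp [coeff_C]
  induction k using Nat.strong_induction_on with
  | _ k ih =>
    match k with
    | 0 =>
      rw [pow_zero, lucasTr_zero, LinearMap.trace_one, hV]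
      norm_num
    | 1 => rw [pow_one, lucasTr_one, htr1]
    | (k + 2) =>
      rw [hrec, map_sub, map_smul, map_smul, ih (k + 1) (by omega), ih k (by omega),
        lucasTr_add_two, smul_eq_mul, smul_eq_mul]

end Lucas

end Fermat.Agent.H30
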