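import Mathlib
import Fermat.Prelude.Def_GaloisRep_Adic
import Fermat.Agent.H99.Burnside
import Fermat.Agent.H30.S31Trace

/-!
# S31 assembly, block A: traces determine the action (absolutely irreducible residual case)

`rho_eq_one_of_trace_mul_left`: let `ρ` be a two-dimensional representation over a local ring
`T` whose residual representation is absolutely irreducible. If
`tr ρ(σ₀ g) = tr ρ(g)` for all `g`, then `ρ(σ₀) = 1`.

Proof: by Burnside (`H99.burnside`) the residual image spans `End`, so by Nakayama the image of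
`ρ` spans `End_T V`; the trace pairing is perfect.
-/

set_option autoImplicit false

open scoped TensorProduct

namespace Fermat.Agent.H30

section Reduction

variable {T : Type*} [CommRing T] [IsLocalRing T] {V : Type*} [AddCommGroup V] [Module T V]

/-- If the reduction of `Y` modulo the maximal ideal vanishes, then `Y` maps into `𝔪 • ⊤`. -/
lemma apply_mem_smul_top_of_baseChange_eq_zero (Y : Module.End T V)
    (hY : Y.baseChange (IsLocalRing.ResidueField T) = 0) (v : V) :
    Y v ∈ IsLocalRing.maximalIdeal T • (⊤ : Submodule T V) := by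
  have h0 : (1 : IsLocalRing.ResidueField T) ⊗ₜ[T] (Y v) = 0 := by
    rw [← LinearMap.baseChange_tmul, hY, LinearMap.zero_apply]
  have h1 : ((1 : T ⧸ IsLocalRing.maximalIdeal T) ⊗ₜ[T] (Y v) :
      (T ⧸ IsLocalRing.maximalIdeal T) ⊗[T] V) = 0 := h0
  have h3 : TensorProduct.quotTensorEquivQuotSMul V (IsLocalRing.maximalIdeal T)
      ((1 : T ⧸ IsLocalRing.maximalIdeal T) ⊗ₜ[T] (Y v)) = Submodule.Quotient.mk (Y v) :=
    TensorProduct.quotTensorEquivQuotSMul_mk_one_tmul _ _
  rw [h1, map_zero] at h3
  exact (Submodule.Quotient.mk_eq_zero _).mp h3.symm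

variable [Module.Free T V] [Module.Finite T V]

/-- If the reduction of `Y` modulo the maximal ideal vanishes, then `Y ∈ 𝔪 • End V`. -/
lemma end_mem_smul_top_of_baseChange_eq_zero (Y : Module.End T V)
    (hY : Y.baseChange (IsLocalRing.ResidueField T) = 0) :
    Y ∈ IsLocalRing.maximalIdeal T • (⊤ : Submodule T (Module.End T V)) := by
  classical
  let b := Module.Free.chooseBasis T V
  let e := LinearMap.toMatrixAlgEquiv b
  have hY' : Y = ∑ i, ∑ j, (e Y i j) • e.symm (Matrix.single i j (1 : T)) := by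
    apply e.injective
    rw [map_sum]
    conv_lhs => rw [Matrix.matrix_eq_sum_single (e Y)]
    refine Finset.sum_congr rfl fun i _ => ?_
    rw [map_sum]
    refine Finset.sum_congr rfl fun j _ => ?_
    rw [map_smul, AlgEquiv.apply_symm_apply, Matrix.smul_single, smul_eq_mul, mul_one]
  rw [hY']
  refine Submodule.sum_mem _ fun i _ => Submodule.sum_mem _ fun j _ => ?_
  refine Submodule.smul_mem_smul ?_ Submodule.mem_top
  have : e Y i j = b.repr (Y (b j)) i := by
    change LinearMap.toMatrix b b Y i j = _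
    rw [LinearMap.toMatrix_apply]
  rw [this]
  exact repr_mem_of_mem_smul_top b _ (apply_mem_smul_top_of_baseChange_eq_zero Y hY _) i

end Reduction

/-- **Traces determine the action.** If the residual representation of `ρ` is absolutely
irreducible and `tr ρ(σ₀ g) = tr ρ(g)` for all `g`, then `ρ(σ₀) = 1`. -/
theorem rho_eq_one_of_trace_mul_left {T : Type} [CommRing T] [IsLocalRing T]
    (ρ : GaloisRepAdic T) (habs : ρ.residual.IsAbsolutelyIrreducible)
    (σ₀ : AlgebraicClosure ℚ ≃ₐ[ℚ] AlgebraicClosure ℚ)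
    (htr : ∀ g : AlgebraicClosure ℚ ≃ₐ[ℚ] AlgebraicClosure ℚ,
      LinearMap.trace T ρ.V (ρ.ρ (σ₀ * g)) = LinearMap.trace T ρ.V (ρ.ρ g)) :
    ρ.ρ σ₀ = 1 := by
  classical
  have hburn := Fermat.Agent.H99.burnside (IsLocalRing.ResidueField T) ρ.residual habs
  -- every element of the residual span lifts to the span of the image of `ρ`
  have hlift : ∀ W ∈ Submodule.span (IsLocalRing.ResidueField T) (Set.range ρ.residual.ρ),
      ∃ Z ∈ Submodule.span T (Set.range ρ.ρ),
        Z.baseChange (IsLocalRing.ResidueField T) = W := by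
    intro W hW
    induction hW using Submodule.span_induction with
    | mem W hW =>
      obtain ⟨g, rfl⟩ := hW
      exact ⟨ρ.ρ g, Submodule.subset_span ⟨g, rfl⟩, rfl⟩
    | zero => exact ⟨0, Submodule.zero_mem _, LinearMap.baseChange_zero⟩
    | add W₁ W₂ _ _ h₁ h₂ =>
      obtain ⟨Z₁, hZ₁, rfl⟩ := h₁
      obtain ⟨Z₂, hZ₂, rfl⟩ := h₂
      exact ⟨Z₁ + Z₂, Submodule.add_mem _ hZ₁ hZ₂, LinearMap.baseChange_add _ _⟩
    | smul c W _ h =>
      obtain ⟨Z, hZ, rfl⟩ := h
      obtain ⟨c, rfl⟩ := IsLocalRing.residue_surjective c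
      refine ⟨c • Z, Submodule.smul_mem _ _ hZ, ?_⟩
      rw [LinearMap.baseChange_smul]
      exact (algebraMap_smul (IsLocalRing.ResidueField T) c
        (Z.baseChange (IsLocalRing.ResidueField T))).symm
  -- Nakayama: the image of `ρ` spans `End V`
  have hsup : (⊤ : Submodule T (Module.End T ρ.V)) ≤
      Submodule.span T (Set.range ρ.ρ) ⊔
        IsLocalRing.maximalIdeal T • (⊤ : Submodule T (Module.End T ρ.V)) := by
    intro X _
    obtain ⟨Z, hZ, hZX⟩ := hlift (X.baseChange (IsLocalRing.ResidueField T))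
      (by rw [hburn]; exact Submodule.mem_top)
    have h1 : X - Z ∈ IsLocalRing.maximalIdeal T • (⊤ : Submodule T (Module.End T ρ.V)) :=
      end_mem_smul_top_of_baseChange_eq_zero (X - Z)
        (by rw [LinearMap.baseChange_sub]; exact sub_eq_zero.mpr hZX.symm)
    have h2 : X = Z + (X - Z) := by abel
    rw [h2]
    exact Submodule.add_mem_sup hZ h1
  have hA : (⊤ : Submodule T (Module.End T ρ.V)) ≤ Submodule.span T (Set.range ρ.ρ) :=
    Submodule.le_of_le_smul_of_le_jacobson_bot Module.Finite.fg_top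
      (IsLocalRing.maximalIdeal_le_jacobson ⊥) hsup
  -- the trace pairing
  have hD : ∀ X : Module.End T ρ.V, LinearMap.trace T ρ.V ((ρ.ρ σ₀ - 1) * X) = 0 := by
    intro X
    have hX : X ∈ Submodule.span T (Set.range ρ.ρ) := hA Submodule.mem_top
    induction hX using Submodule.span_induction with
    | mem X hX =>
      obtain ⟨g, rfl⟩ := hX
      rw [sub_mul, one_mul, ← map_mul, map_sub, htr g, sub_self]
    | zero => rw [mul_zero, map_zero]
    | add X₁ X₂ _ _ h₁ h₂ => rw [mul_add, map_add, h₁, h₂, add_zero]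
    | smul c X _ h => rw [mul_smul_comm, map_smul, h, smul_zero]
  have := end_eq_zero_of_trace_mul_eq_zero (ρ.ρ σ₀ - 1) hD
  exact sub_eq_zero.mp this

end Fermat.Agent.H30
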