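import Mathlib
import Fermat.Prelude.Def_CuspForm_HeckeGaloisRepDatum
import Fermat.Agent.H30.S31Algebra

/-!
# S31 assembly, block B: comparison of traces with the modular points

* `FrobPowerDense`: weak Chebotarev ("Frobenius density"): every element of `Gal(ℚ̄/ℚ)` agrees on
  any finite extension with a power of a Frobenius lift at a prime outside a given finite set.
* `HeckePoint p N S`: a ring homomorphism `χ` from the Hecke algebra to a local ring together with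
  a Galois representation with the Eichler–Shimura characteristic polynomials, unramified at the
  primes not dividing `N p`.
* `EnoughPoints p N S`: finitely many Hecke points which separate the Hecke algebra
  `p`-adically.
* `isUnramifiedAt_of_enoughPoints`: the S31 conclusion from `FrobPowerDense` and `EnoughPoints`.
-/

set_option autoImplicit false

open Polynomial

namespace Fermat.Agent.H30

/-- **Frobenius density, power form**: every `g ∈ Gal(ℚ̄/ℚ)` agrees on any given finite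
extension of `ℚ` with a power of a Frobenius lift at a place over a prime outside any given finite
set. (Implied by Chebotarev's theorem, and by the Frobenius density theorem.) -/
def FrobPowerDense : Prop :=
  ∀ (F : IntermediateField ℚ (AlgebraicClosure ℚ)), FiniteDimensional ℚ F →
    ∀ (g : AlgebraicClosure ℚ ≃ₐ[ℚ] AlgebraicClosure ℚ) (S : Finset ℕ),
      ∃ (ℓ : ℕ) (A : ValuationSubring (AlgebraicClosure ℚ))
        (σ : AlgebraicClosure ℚ ≃ₐ[ℚ] AlgebraicClosure ℚ) (k : ℕ),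
        ℓ.Prime ∧ ℓ ∉ S ∧ A.LiesOverPrime ℓ ∧ A.IsFrobeniusAt σ ℓ ∧
          ∀ x ∈ F, (σ ^ k) x = g x

/-- A Hecke point: a ring homomorphism from the Hecke algebra to a local ring, with an attached
Galois representation. -/
structure HeckePoint (p N : ℕ) [NeZero N] (S : Finset ℕ) : Type 1 where
  /-- the coefficient ring -/
  R : Type
  [instCommRing : CommRing R]
  [instIsLocalRing : IsLocalRing R]
  /-- the system of eigenvalues -/
  χ : CuspForm.heckeAlgebra N 2 (↑S : Set ℕ) →+* R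
  /-- the attached representation -/
  ρ : GaloisRepAdic R
  charpoly_frob : ∀ (ℓ : ℕ) (hℓ : ℓ.Prime) (hℓN : ¬ ℓ ∣ N) (hℓS : ℓ ∉ (↑S : Set ℕ)),
    ∀ A : ValuationSubring (AlgebraicClosure ℚ), A.LiesOverPrime ℓ →
      ∀ σ : AlgebraicClosure ℚ ≃ₐ[ℚ] AlgebraicClosure ℚ, A.IsFrobeniusAt σ ℓ →
        LinearMap.charpoly (ρ.ρ σ) =
          X ^ 2 - C (χ (CuspForm.heckeAlgebra.T hℓ hℓN hℓS)) * X + C ((ℓ : R))
  unram : ∀ q : ℕ, q.Prime → ¬ q ∣ N → q ≠ p → ρ.IsUnramifiedAt q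

attribute [instance] HeckePoint.instCommRing HeckePoint.instIsLocalRing

/-- Finitely many Hecke points separating the Hecke algebra `p`-adically. -/
def EnoughPoints (p N : ℕ) [NeZero N] (S : Finset ℕ) : Prop :=
  ∃ (ι : Type) (_ : Fintype ι) (P : ι → HeckePoint p N S), ∀ n : ℕ, ∃ m : ℕ,
    ∀ t : CuspForm.heckeAlgebra N 2 (↑S : Set ℕ),
      (∀ i, (P i).χ t ∈ IsLocalRing.maximalIdeal (P i).R ^ m) →
        ∃ s : CuspForm.heckeAlgebra N 2 (↑S : Set ℕ), t = (p : CuspForm.heckeAlgebra N 2 _) ^ n * s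

section Continuity

variable {A : Type} [CommRing A] [IsLocalRing A]

/-- Traces modulo `𝔪 ^ n` only depend on the restriction to the field `L` of continuity. -/
lemma trace_mul_sub_trace_mem (ρ : GaloisRepAdic A) (n : ℕ)
    (L : IntermediateField ℚ (AlgebraicClosure ℚ))
    (hL : ∀ σ : AlgebraicClosure ℚ ≃ₐ[ℚ] AlgebraicClosure ℚ, (∀ x ∈ L, σ x = x) →
      ∀ v : ρ.V, ρ.ρ σ v - v ∈ (IsLocalRing.maximalIdeal A ^ n) • (⊤ : Submodule A ρ.V))
    (g h : AlgebraicClosure ℚ ≃ₐ[ℚ] AlgebraicClosure ℚ) (hh : ∀ x ∈ L, h x = x) :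
    LinearMap.trace A ρ.V (ρ.ρ (g * h)) - LinearMap.trace A ρ.V (ρ.ρ g) ∈
      IsLocalRing.maximalIdeal A ^ n := by
  rw [← map_sub]
  apply trace_mem_of_forall_mem_smul_top
  intro v
  have h1 : (ρ.ρ (g * h) - ρ.ρ g) v = ρ.ρ g (ρ.ρ h v - v) := by
    rw [map_mul, LinearMap.sub_apply, Module.End.mul_apply, map_sub]
  rw [h1]
  have h2 := hL h hh v
  have h3 : ((IsLocalRing.maximalIdeal A ^ n) • (⊤ : Submodule A ρ.V)).map (ρ.ρ g) ≤
      (IsLocalRing.maximalIdeal A ^ n) • (⊤ : Submodule A ρ.V) := by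
    rw [Submodule.map_smul'']
    exact Submodule.smul_mono le_rfl le_top
  exact h3 (Submodule.mem_map_of_mem h2)

/-- Traces modulo `𝔪 ^ n` of two elements agreeing on the field `L` of continuity agree. -/
lemma trace_sub_trace_mem_of_agree (ρ : GaloisRepAdic A) (n : ℕ)
    (L : IntermediateField ℚ (AlgebraicClosure ℚ))
    (hL : ∀ σ : AlgebraicClosure ℚ ≃ₐ[ℚ] AlgebraicClosure ℚ, (∀ x ∈ L, σ x = x) →
      ∀ v : ρ.V, ρ.ρ σ v - v ∈ (IsLocalRing.maximalIdeal A ^ n) • (⊤ : Submodule A ρ.V))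
    (g₁ g₂ : AlgebraicClosure ℚ ≃ₐ[ℚ] AlgebraicClosure ℚ) (h : ∀ x ∈ L, g₁ x = g₂ x) :
    LinearMap.trace A ρ.V (ρ.ρ g₁) - LinearMap.trace A ρ.V (ρ.ρ g₂) ∈
      IsLocalRing.maximalIdeal A ^ n := by
  have hfix : ∀ x ∈ L, (g₂⁻¹ * g₁) x = x := by
    intro x hx
    rw [AlgEquiv.mul_apply, h x hx]
    exact g₂.symm_apply_apply x
  have := trace_mul_sub_trace_mem ρ n L hL g₂ (g₂⁻¹ * g₁) hfix
  rwa [mul_inv_cancel_left] at this

/-- Continuity data can be enlarged. -/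
lemma trace_sub_trace_mem_of_agree_of_le (ρ : GaloisRepAdic A) (n : ℕ)
    (L L' : IntermediateField ℚ (AlgebraicClosure ℚ)) (hLL' : L ≤ L')
    (hL : ∀ σ : AlgebraicClosure ℚ ≃ₐ[ℚ] AlgebraicClosure ℚ, (∀ x ∈ L, σ x = x) →
      ∀ v : ρ.V, ρ.ρ σ v - v ∈ (IsLocalRing.maximalIdeal A ^ n) • (⊤ : Submodule A ρ.V))
    (g₁ g₂ : AlgebraicClosure ℚ ≃ₐ[ℚ] AlgebraicClosure ℚ) (h : ∀ x ∈ L', g₁ x = g₂ x) :
    LinearMap.trace A ρ.V (ρ.ρ g₁) - LinearMap.trace A ρ.V (ρ.ρ g₂) ∈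
      IsLocalRing.maximalIdeal A ^ n :=
  trace_sub_trace_mem_of_agree ρ n L hL g₁ g₂ fun x hx => h x (hLL' hx)

/-- The trace of a power of an element with Eichler–Shimura characteristic polynomial. -/
lemma trace_rho_pow_eq_lucasTr (ρ : GaloisRepAdic A)
    (σ : AlgebraicClosure ℚ ≃ₐ[ℚ] AlgebraicClosure ℚ) (a d : A)
    (h : LinearMap.charpoly (ρ.ρ σ) = X ^ 2 - C a * X + C d) (k : ℕ) :
    LinearMap.trace A ρ.V (ρ.ρ (σ ^ k)) = lucasTr a d k := by
  rw [map_pow]
  exact trace_pow_eq_lucasTr ρ.finrank_eq (ρ.ρ σ) a d h k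

end Continuity

end Fermat.Agent.H30
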