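import Mathlib
import Fermat.Prelude.Def_CuspForm_HeckeGaloisRepDatum
import Fermat.Agent.H30.S31Core

/-!
# S31 assembly, block C: the Galois representation of a Hecke–Galois datum is unramified
outside `S`, given Frobenius density and enough modular points

`isUnramifiedAt_of_enoughPoints`: the conclusion of S31 from `FrobPowerDense` and `EnoughPoints`.
-/

set_option autoImplicit false

open Polynomial

namespace Fermat.Agent.H30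

theorem isUnramifiedAt_of_enoughPoints (hFrob : FrobPowerDense)
    {p : ℕ} {N : ℕ} [NeZero N] {S : Finset ℕ}
    {𝒪 : Type} [CommRing 𝒪] [IsDomain 𝒪] [IsDiscreteValuationRing 𝒪]
    [IsAdicComplete (IsLocalRing.maximalIdeal 𝒪) 𝒪]
    {θ : CuspForm.heckeAlgebra N 2 (↑S : Set ℕ) →+* IsLocalRing.ResidueField 𝒪}
    {T : Type} [CommRing T] [IsLocalRing T] [IsNoetherianRing T]
    [IsAdicComplete (IsLocalRing.maximalIdeal T) T] [Algebra 𝒪 T] [IsLocalHom (algebraMap 𝒪 T)]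
    [Module.Finite 𝒪 T] [Module.Free 𝒪 T]
    (hp𝒪 : (p : 𝒪) ∈ IsLocalRing.maximalIdeal 𝒪) (hpS : p ∈ S)
    (hNS : ∀ q : ℕ, q.Prime → q ∣ N → q ∈ S)
    (hpts : EnoughPoints p N S)
    (H : CuspForm.HeckeGaloisRepDatum N (↑S : Set ℕ) 𝒪 θ T)
    (q : ℕ) (hq : q.Prime) (hqS : q ∉ S) :
    H.ρ.IsUnramifiedAt q := by
  classical
  intro P hP σ₀ hσ₀
  apply rho_eq_one_of_trace_mul_left H.ρ H.residual_absIrr σ₀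
  intro g
  have hqN : ¬ q ∣ N := fun h => hqS (hNS q hq h)
  have hqp : q ≠ p := fun h => hqS (h ▸ hpS)
  have hpT : (p : T) ∈ IsLocalRing.maximalIdeal T := by
    have h1 : (p : T) = algebraMap 𝒪 T (p : 𝒪) := (map_natCast (algebraMap 𝒪 T) p).symm
    rw [h1]
    exact map_nonunit (algebraMap 𝒪 T) _ hp𝒪
  suffices h : ∀ n : ℕ, LinearMap.trace T H.ρ.V (H.ρ.ρ (σ₀ * g)) -
      LinearMap.trace T H.ρ.V (H.ρ.ρ g) ∈ IsLocalRing.maximalIdeal T ^ n by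
    have hbot := Ideal.iInf_pow_eq_bot_of_isLocalRing (IsLocalRing.maximalIdeal T)
      (Ideal.IsMaximal.ne_top inferInstance)
    have hmem : LinearMap.trace T H.ρ.V (H.ρ.ρ (σ₀ * g)) -
        LinearMap.trace T H.ρ.V (H.ρ.ρ g) ∈ ⨅ i, IsLocalRing.maximalIdeal T ^ i :=
      (Ideal.mem_iInf).mpr h
    rw [hbot] at hmem
    exact sub_eq_zero.mp hmem
  intro n
  obtain ⟨ι, hι, Pt, hsep⟩ := hpts
  obtain ⟨m, hm⟩ := hsep n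
  obtain ⟨L₀, hL₀fin, hL₀⟩ := H.ρ.isAdicContinuous n
  choose Li hLifin hLi using fun i => (Pt i).ρ.isAdicContinuous m
  have hLfin : FiniteDimensional ℚ ↥(L₀ ⊔ ⨆ i, Li i) := by
    have : ∀ i, FiniteDimensional ℚ (Li i) := hLifin
    have : FiniteDimensional ℚ ↥(⨆ i, Li i) := IntermediateField.finiteDimensional_iSup_of_finite
    exact IntermediateField.finiteDimensional_sup _ _
  have hL₀le : L₀ ≤ L₀ ⊔ ⨆ i, Li i := le_sup_left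
  have hLile : ∀ i, Li i ≤ L₀ ⊔ ⨆ i, Li i := fun i => (le_iSup Li i).trans le_sup_right
  obtain ⟨ℓ₁, A₁, φ₁, k₁, hℓ₁, hℓ₁S, hA₁, hφ₁, hag₁⟩ := hFrob _ hLfin g S
  obtain ⟨ℓ₂, A₂, φ₂, k₂, hℓ₂, hℓ₂S, hA₂, hφ₂, hag₂⟩ := hFrob _ hLfin (σ₀ * g) S
  have hℓ₁N : ¬ ℓ₁ ∣ N := fun h => hℓ₁S (hNS ℓ₁ hℓ₁ h)
  have hℓ₂N : ¬ ℓ₂ ∣ N := fun h => hℓ₂S (hNS ℓ₂ hℓ₂ h)
  have hℓ₁S' : ℓ₁ ∉ (↑S : Set ℕ) := fun h => hℓ₁S (Finset.mem_coe.mp h)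
  have hℓ₂S' : ℓ₂ ∉ (↑S : Set ℕ) := fun h => hℓ₂S (Finset.mem_coe.mp h)
  set t₁ : CuspForm.heckeAlgebra N 2 (↑S : Set ℕ) :=
    lucasTr (CuspForm.heckeAlgebra.T hℓ₁ hℓ₁N hℓ₁S') (ℓ₁ : CuspForm.heckeAlgebra N 2 _) k₁
    with ht₁
  set t₂ : CuspForm.heckeAlgebra N 2 (↑S : Set ℕ) :=
    lucasTr (CuspForm.heckeAlgebra.T hℓ₂ hℓ₂N hℓ₂S') (ℓ₂ : CuspForm.heckeAlgebra N 2 _) k₂
    with ht₂
  -- traces of `H.ρ` at the two Frobenius powers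
  have hH₁ : LinearMap.trace T H.ρ.V (H.ρ.ρ (φ₁ ^ k₁)) = H.π t₁ := by
    rw [trace_rho_pow_eq_lucasTr H.ρ φ₁ _ _ (H.charpoly_frob ℓ₁ hℓ₁ hℓ₁N hℓ₁S' A₁ hA₁ φ₁ hφ₁) k₁,
      ht₁, map_lucasTr, map_natCast]
  have hH₂ : LinearMap.trace T H.ρ.V (H.ρ.ρ (φ₂ ^ k₂)) = H.π t₂ := by
    rw [trace_rho_pow_eq_lucasTr H.ρ φ₂ _ _ (H.charpoly_frob ℓ₂ hℓ₂ hℓ₂N hℓ₂S' A₂ hA₂ φ₂ hφ₂) k₂,
      ht₂, map_lucasTr, map_natCast]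
  have hc₁ := trace_sub_trace_mem_of_agree_of_le H.ρ n L₀ _ hL₀le hL₀ (φ₁ ^ k₁) g hag₁
  have hc₂ := trace_sub_trace_mem_of_agree_of_le H.ρ n L₀ _ hL₀le hL₀ (φ₂ ^ k₂) (σ₀ * g) hag₂
  rw [hH₁] at hc₁
  rw [hH₂] at hc₂
  -- the modular points
  have hpt : ∀ i, (Pt i).χ (t₂ - t₁) ∈ IsLocalRing.maximalIdeal (Pt i).R ^ m := by
    intro i
    have hP₁ : LinearMap.trace (Pt i).R (Pt i).ρ.V ((Pt i).ρ.ρ (φ₁ ^ k₁)) = (Pt i).χ t₁ := by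
      rw [trace_rho_pow_eq_lucasTr (Pt i).ρ φ₁ _ _
        ((Pt i).charpoly_frob ℓ₁ hℓ₁ hℓ₁N hℓ₁S' A₁ hA₁ φ₁ hφ₁) k₁, ht₁, map_lucasTr, map_natCast]
    have hP₂ : LinearMap.trace (Pt i).R (Pt i).ρ.V ((Pt i).ρ.ρ (φ₂ ^ k₂)) = (Pt i).χ t₂ := by
      rw [trace_rho_pow_eq_lucasTr (Pt i).ρ φ₂ _ _
        ((Pt i).charpoly_frob ℓ₂ hℓ₂ hℓ₂N hℓ₂S' A₂ hA₂ φ₂ hφ₂) k₂, ht₂, map_lucasTr, map_natCast]
    have hd₁ := trace_sub_trace_mem_of_agree_of_le (Pt i).ρ m (Li i) _ (hLile i) (hLi i)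
      (φ₁ ^ k₁) g hag₁
    have hd₂ := trace_sub_trace_mem_of_agree_of_le (Pt i).ρ m (Li i) _ (hLile i) (hLi i)
      (φ₂ ^ k₂) (σ₀ * g) hag₂
    rw [hP₁] at hd₁
    rw [hP₂] at hd₂
    have hun : (Pt i).ρ.ρ (σ₀ * g) = (Pt i).ρ.ρ g := by
      rw [map_mul, (Pt i).unram q hq hqN hqp P hP σ₀ hσ₀, one_mul]
    rw [hun] at hd₂
    have : (Pt i).χ (t₂ - t₁) =
        ((Pt i).χ t₂ - LinearMap.trace (Pt i).R (Pt i).ρ.V ((Pt i).ρ.ρ g)) -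
          ((Pt i).χ t₁ - LinearMap.trace (Pt i).R (Pt i).ρ.V ((Pt i).ρ.ρ g)) := by
      rw [map_sub]; ring
    rw [this]
    exact Ideal.sub_mem _ hd₂ hd₁
  obtain ⟨s, hs⟩ := hm (t₂ - t₁) hpt
  have hπ : H.π t₂ - H.π t₁ ∈ IsLocalRing.maximalIdeal T ^ n := by
    rw [← map_sub, hs, map_mul, map_pow, map_natCast]
    exact Ideal.mul_mem_right _ _ (Ideal.pow_mem_pow hpT n)
  have : LinearMap.trace T H.ρ.V (H.ρ.ρ (σ₀ * g)) - LinearMap.trace T H.ρ.V (H.ρ.ρ g) =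
      (H.π t₂ - H.π t₁) - (H.π t₂ - LinearMap.trace T H.ρ.V (H.ρ.ρ (σ₀ * g))) +
        (H.π t₁ - LinearMap.trace T H.ρ.V (H.ρ.ρ g)) := by ring
  rw [this]
  exact Ideal.add_mem _ (Ideal.sub_mem _ hπ hc₂) hc₁

end Fermat.Agent.H30
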