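import Mathlib
import Fermat.Prelude.Def_CuspForm_HeckeGaloisRepDatum
import Fermat.Agent.H30.S31Main
import Fermat.Agent.H30.CompleteDVR
import Fermat.Agent.H30.PointsInterfaces
import Fermat.Agent.H30.PointsAlgebra
import Fermat.Agent.H30.HeckeReduced

/-!
# S31 assembly (route via S30): enough modular points from S30

* `S30Statement`: the frozen statement S30 as a `Prop`.
* `exists_heckePoint_of_S30`: a Hecke point at a finite place of a number field.
* `enoughPoints_of_S30`: `EnoughPoints` from S30, the conductor statement and reducedness.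
* `s31_of_S30`: the conclusion of S31 from S30, Frobenius density, the Petersson form statement,
  the conductor statement and finiteness of the Hecke algebra.
-/

set_option autoImplicit false

open Polynomial IsDedekindDomain HeightOneSpectrum

open scoped NumberField

namespace Fermat.Agent.H30

/-- The frozen statement S30. -/
def S30Statement : Prop :=
  ∀ (p : ℕ) [Fact p.Prime] (N : ℕ) [NeZero N] (S : Finset ℕ)
    (_hpS : p ∈ S) (_hNS : ∀ q : ℕ, q.Prime → q ∣ N → q ∈ S)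
    (𝒪' : Type) [CommRing 𝒪'] [IsDomain 𝒪'] [IsDiscreteValuationRing 𝒪']
    [IsAdicComplete (IsLocalRing.maximalIdeal 𝒪') 𝒪'] [Finite (IsLocalRing.ResidueField 𝒪')]
    [CharZero 𝒪'] (_hp𝒪' : (p : 𝒪') ∈ IsLocalRing.maximalIdeal 𝒪')
    (χ : CuspForm.heckeAlgebra N 2 (↑S : Set ℕ) →+* 𝒪'),
    ∃ (𝒪'' : Type) (_ : CommRing 𝒪'') (_ : IsDomain 𝒪'') (_ : IsDiscreteValuationRing 𝒪'')
      (_ : IsAdicComplete (IsLocalRing.maximalIdeal 𝒪'') 𝒪'')
      (_ : Finite (IsLocalRing.ResidueField 𝒪'')) (_ : CharZero 𝒪'')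
      (_ : Algebra 𝒪' 𝒪'') (_ : Module.Finite 𝒪' 𝒪'') (_ : IsLocalHom (algebraMap 𝒪' 𝒪'')),
    Function.Injective (algebraMap 𝒪' 𝒪'') ∧
    ∃ ρ : GaloisRepAdic 𝒪'',
      (∀ (ℓ : ℕ) (hℓ : ℓ.Prime) (hℓN : ¬ ℓ ∣ N) (hℓS : ℓ ∉ (↑S : Set ℕ)),
        ∀ A : ValuationSubring (AlgebraicClosure ℚ), A.LiesOverPrime ℓ →
          ∀ σ : AlgebraicClosure ℚ ≃ₐ[ℚ] AlgebraicClosure ℚ, A.IsFrobeniusAt σ ℓ →
            LinearMap.charpoly (ρ.ρ σ) =
              X ^ 2 - C (algebraMap 𝒪' 𝒪'' (χ (CuspForm.heckeAlgebra.T hℓ hℓN hℓS))) * X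
                + C ((ℓ : 𝒪''))) ∧
      (∀ q : ℕ, q.Prime → ¬ q ∣ N → q ≠ p → ρ.IsUnramifiedAt q)

/-- A Hecke point attached by S30 to a point in a number field and a place over `p`. -/
theorem exists_heckePoint_of_S30 (hS30 : S30Statement) (p : ℕ) [Fact p.Prime] (N : ℕ) [NeZero N]
    (S : Finset ℕ) (hpS : p ∈ S) (hNS : ∀ q : ℕ, q.Prime → q ∣ N → q ∈ S)
    (E : Type) [Field E] [NumberField E]
    (φ : CuspForm.heckeAlgebra N 2 (↑S : Set ℕ) →+* 𝓞 E)
    (v : HeightOneSpectrum (𝓞 E)) (hv : (p : 𝓞 E) ∈ v.asIdeal) :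
    ∃ Pt : HeckePoint p N S, ∀ m : ℕ, ∃ m' : ℕ,
      ∀ t, Pt.χ t ∈ IsLocalRing.maximalIdeal Pt.R ^ m' → φ t ∈ v.asIdeal ^ m := by
  have : Finite (𝓞 E ⧸ v.asIdeal) := Ideal.finiteQuotientOfFreeOfNeBot v.asIdeal v.ne_bot
  have : Finite (IsLocalRing.ResidueField (v.adicCompletionIntegers E)) :=
    finite_residueField_adicCompletionIntegers (K := E) v
  have : CharZero (v.adicCompletionIntegers E) := charZero_adicCompletionIntegers (K := E) v
  have hp𝒪' : (p : v.adicCompletionIntegers E) ∈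
      IsLocalRing.maximalIdeal (v.adicCompletionIntegers E) := by
    have h1 : (p : v.adicCompletionIntegers E) =
        algebraMap (𝓞 E) (v.adicCompletionIntegers E) (p : 𝓞 E) := (map_natCast _ p).symm
    rw [h1, algebraMap_mem_maximalIdeal_iff]
    exact hv
  obtain ⟨𝒪'', i1, i2, i3, i4, i5, i6, i7, i8, i9, hinj, ρ, hcp, hun⟩ :=
    hS30 p N S hpS hNS (v.adicCompletionIntegers E) hp𝒪'
      ((algebraMap (𝓞 E) (v.adicCompletionIntegers E)).comp φ)
  refine ⟨{ R := 𝒪''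
            χ := (algebraMap (v.adicCompletionIntegers E) 𝒪'').comp
              ((algebraMap (𝓞 E) (v.adicCompletionIntegers E)).comp φ)
            ρ := ρ
            charpoly_frob := hcp
            unram := hun }, fun m => ?_⟩
  obtain ⟨m', hm'⟩ := exists_pow_bound_of_injective_dvr
    (algebraMap (v.adicCompletionIntegers E) 𝒪'') hinj m
  refine ⟨m', fun t ht => ?_⟩
  have h2 := hm' _ ht
  rw [RingHom.comp_apply, algebraMap_mem_maximalIdeal_pow_iff] at h2
  exact h2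

/-- **Enough points** from S30, the conductor statement, reducedness and finiteness. -/
theorem enoughPoints_of_S30 (hS30 : S30Statement) (hQ : NFSeparationStatement)
    (p : ℕ) [Fact p.Prime] (N : ℕ) [NeZero N]
    (S : Finset ℕ) (hpS : p ∈ S) (hNS : ∀ q : ℕ, q.Prime → q ∣ N → q ∈ S)
    [IsReduced (CuspForm.heckeAlgebra N 2 (↑S : Set ℕ))]
    [Module.Finite ℤ (CuspForm.heckeAlgebra N 2 (↑S : Set ℕ))] :
    EnoughPoints p N S := by
  classical
  have hp : p.Prime := Fact.out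
  obtain ⟨J, hJ, P, c, hc, hsep⟩ := hQ (CuspForm.heckeAlgebra N 2 (↑S : Set ℕ))
  -- the finitely many places over `p`
  have hfinv : ∀ j : J, Finite {v : HeightOneSpectrum (𝓞 (P j).E) //
      (p : 𝓞 (P j).E) ∈ v.asIdeal} := by
    intro j
    have hp0 : Ideal.span {(p : 𝓞 (P j).E)} ≠ 0 := by
      simpa using hp.ne_zero
    have := Ideal.finite_factors hp0
    refine Set.Finite.to_subtype (this.subset ?_)
    intro v hv
    rw [Set.mem_ofPred_eq, Ideal.dvd_span_singleton]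
    exact hv
  have : Finite (Σ j : J, {v : HeightOneSpectrum (𝓞 (P j).E) //
      (p : 𝓞 (P j).E) ∈ v.asIdeal}) := by
    have := hfinv
    infer_instance
  have : Fintype (Σ j : J, {v : HeightOneSpectrum (𝓞 (P j).E) //
      (p : 𝓞 (P j).E) ∈ v.asIdeal}) := Fintype.ofFinite _
  choose Pt hPt using fun i : (Σ j : J, {v : HeightOneSpectrum (𝓞 (P j).E) //
      (p : 𝓞 (P j).E) ∈ v.asIdeal}) =>
    exists_heckePoint_of_S30 hS30 p N S hpS hNS (P i.1).E (P i.1).φ i.2.1 i.2.2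
  refine ⟨_, inferInstance, Pt, fun n => ?_⟩
  obtain ⟨a, ha⟩ := exists_eq_pow_mul_of_mul_eq
    (𝕋 := CuspForm.heckeAlgebra N 2 (↑S : Set ℕ)) p hp c hc
  -- exponents for the divisibility by `p ^ (n + a)` in each ring of integers
  have hd0 : ∀ j : J, ((p ^ (n + a) : ℕ) : 𝓞 (P j).E) ≠ 0 := by
    intro j
    exact_mod_cast (pow_ne_zero _ hp.ne_zero)
  choose mj hmj using fun j : J =>
    exists_pow_dvd_of_forall_mem_pow (R := 𝓞 (P j).E) (P j).E
      ((p ^ (n + a) : ℕ) : 𝓞 (P j).E) (hd0 j)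
  choose m' hm' using fun i : (Σ j : J, {v : HeightOneSpectrum (𝓞 (P j).E) //
      (p : 𝓞 (P j).E) ∈ v.asIdeal}) => hPt i (mj i.1)
  obtain ⟨m, hm⟩ := (Finset.univ.image m').exists_le
  refine ⟨m, fun t ht => ?_⟩
  have hdiv : ∀ j : J, (((p ^ (n + a) : ℤ) : ℤ) : 𝓞 (P j).E) ∣ (P j).φ t := by
    intro j
    have h1 : ((p ^ (n + a) : ℕ) : 𝓞 (P j).E) ∣ (P j).φ t := by
      apply hmj j
      intro v hv
      have hpv : (p : 𝓞 (P j).E) ∈ v.asIdeal := by
        have : ((p : 𝓞 (P j).E)) ^ (n + a) ∈ v.asIdeal := by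
          simpa using hv
        exact v.isPrime.mem_of_pow_mem _ this
      have h2 := ht ⟨j, ⟨v, hpv⟩⟩
      have h3 : m' ⟨j, ⟨v, hpv⟩⟩ ≤ m :=
        hm _ (Finset.mem_image_of_mem m' (Finset.mem_univ _))
      exact hm' ⟨j, ⟨v, hpv⟩⟩ t (Ideal.pow_le_pow_right h3 h2)
    exact_mod_cast h1
  obtain ⟨s, hs⟩ := hsep ((p : ℤ) ^ (n + a)) t hdiv
  exact ha n t s hs

end Fermat.Agent.H30
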