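import Mathlib
import Fermat.Prelude.Def_CuspForm_HeckeGaloisRepDatum
import Fermat.Agent.H30.S31Points
import Fermat.Agent.H72.FDT.Main
import Fermat.Agent.H22.Main
import Fermat.Agent.H36.S22_OfIntegral

/-!
# S31 assembly (route via S30): final statement

`s31_of_S30`: the frozen S31 follows from the frozen S30 (`S30Statement`), the Petersson form
statement (`PeterssonFormStatement`, giving reducedness of the anemic Hecke algebra) and the
conductor statement (`NFSeparationStatement`, pure commutative algebra). The Frobenius density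
theorem (`Fermat.Agent.H72.frobPow`) and finiteness of the Hecke algebra (S22) are landed.
-/

set_option autoImplicit false

namespace Fermat.Agent.H30

/-- The Frobenius density theorem in the form used by the S31 assembly. -/
theorem frobPowerDense_of_frobPow (h : Fermat.Agent.H72.FrobPowStatement) : FrobPowerDense := by
  intro F hF g S
  obtain ⟨ℓ, A, σ, k, j, hℓ, hℓS, hA, hσ, hk, -⟩ := h F hF g S
  exact ⟨ℓ, A, σ, k, hℓ, hℓS, hA, hσ, fun x hx => (hk x hx).symm⟩

/-- The Frobenius density theorem in the form used by the S31 assembly (unconditional). -/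
theorem frobPowerDense : FrobPowerDense :=
  frobPowerDense_of_frobPow Fermat.Agent.H72.frobPow

/-- **S31 from S30**, the Petersson form statement and the conductor statement. -/
theorem s31_of_S30 (hS30 : S30Statement) (hPet : PeterssonFormStatement)
    (hQ : NFSeparationStatement)
    {p : ℕ} {N : ℕ} [NeZero N] {S : Finset ℕ}
    {𝒪 : Type} [CommRing 𝒪] [IsDomain 𝒪] [IsDiscreteValuationRing 𝒪]
    [IsAdicComplete (IsLocalRing.maximalIdeal 𝒪) 𝒪]
    {θ : CuspForm.heckeAlgebra N 2 (↑S : Set ℕ) →+* IsLocalRing.ResidueField 𝒪}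
    {T : Type} [CommRing T] [IsLocalRing T] [IsNoetherianRing T]
    [IsAdicComplete (IsLocalRing.maximalIdeal T) T] [Algebra 𝒪 T] [IsLocalHom (algebraMap 𝒪 T)]
    [Module.Finite 𝒪 T] [Module.Free 𝒪 T]
    (hp : p.Prime)
    (hp𝒪 : (p : 𝒪) ∈ IsLocalRing.maximalIdeal 𝒪) (hpS : p ∈ S)
    (hNS : ∀ q : ℕ, q.Prime → q ∣ N → q ∈ S)
    (H : CuspForm.HeckeGaloisRepDatum N (↑S : Set ℕ) 𝒪 θ T)
    (q : ℕ) (hq : q.Prime) (hqS : q ∉ S) :
    H.ρ.IsUnramifiedAt q := by
  have : Fact p.Prime := ⟨hp⟩
  have hred : IsReduced (CuspForm.heckeAlgebra N 2 (↑S : Set ℕ)) :=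
    heckeReduced_of_petersson hPet N (↑S : Set ℕ)
      (fun q hq hqN => Finset.mem_coe.mpr (hNS q hq hqN))
  have hfin : Module.Finite ℤ (CuspForm.heckeAlgebra N 2 (↑S : Set ℕ)) :=
    Fermat.Agent.H36.heckeAlgebra_finite_of_hasIntegralStructure N 2 (↑S : Set ℕ)
      (Fermat.Agent.H22.hasIntegralStructure N 2)
  exact isUnramifiedAt_of_enoughPoints frobPowerDense hp𝒪 hpS hNS
    (enoughPoints_of_S30 hS30 hQ p N S hpS hNS) H q hq hqS

end Fermat.Agent.H30
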